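/-
Programme T1a (S19), brick G7 DICT, piece (D-NOETH) (helper34): **the charts of an adapter
`Adapt96.ChartIso c t` are Dedekind domains** when `t` is a coordinate (`X0.FF.IsGen K t`,
characteristic zero): transfer of `X0.FF.isDedekindDomain_intRing` along `E.e0`, `E.e1`.

* `isDedekindDomain_of_ringEquiv34` : Dedekind domains are stable under ring isomorphisms;
* `c0Equiv t : ↥(X0.FF.intRing K t) ≃+* ↥(C0 (K := K) t)` (same carrier);
* `isDedekindDomain_C0`, `isDedekindDomain_C1`, `isFractionRing_C0`, `isFractionRing_C1`;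
* `ChartIso.isDedekindDomain0 E ht : IsDedekindDomain R0`, `ChartIso.isDedekindDomain1`,
  `ChartIso.isNoetherianRing0/1`, `ChartIso.isDomain0/1`.
-/
import Mathlib
import Fermat.Agent.X0.FFSum
import Fermat.Agent.T1.Adapt96.ToLinePair

set_option autoImplicit false
set_option linter.unusedSectionVars false
set_option linter.style.haveILetI false

noncomputable section

open Fermat.Agent.X0.FF Fermat.Agent.T1.Dict59 Fermat.Agent.Jac

namespace Fermat.Agent.T1.Dict34

/-- Dedekind domains are stable under ring isomorphisms. -/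
theorem isDedekindDomain_of_ringEquiv34 {R S : Type*} [CommRing R] [CommRing S] (e : R ≃+* S)
    [IsDedekindDomain R] : IsDedekindDomain S := by
  haveI : IsDomain S := e.symm.toMulEquiv.isDomain R
  haveI : IsNoetherianRing S := isNoetherianRing_of_ringEquiv R e
  haveI : Ring.DimensionLEOne S := Ring.DimensionLEOne.of_ringEquiv e.symm
  haveI : IsIntegrallyClosed S := IsIntegrallyClosed.of_equiv e
  exact { }

section Field

variable {K F : Type*} [Field K] [Field F] [Algebra K F]

/-- The chart `C0 t` of the dictionary is the ring `intRing K t` of `X0/FFSum` (same carrier). -/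
def c0Equiv (t : F) : ↥(intRing K t) ≃+* ↥(C0 (K := K) t) where
  toFun x := ⟨x.1, x.2⟩
  invFun x := ⟨x.1, x.2⟩
  left_inv _ := rfl
  right_inv _ := rfl
  map_mul' _ _ := rfl
  map_add' _ _ := rfl

@[simp] theorem coe_c0Equiv (t : F) (x : intRing K t) : ((c0Equiv t x : C0 (K := K) t) : F) = x :=
  rfl

@[simp] theorem coe_c0Equiv_symm (t : F) (x : C0 (K := K) t) :
    (((c0Equiv t).symm x : intRing K t) : F) = x := rfl

variable [CharZero K]

theorem isDedekindDomain_C0 {t : F} (ht : IsGen K t) : IsDedekindDomain ↥(C0 (K := K) t) :=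
  haveI := isDedekindDomain_intRing ht
  isDedekindDomain_of_ringEquiv34 (c0Equiv t)

theorem isDedekindDomain_C1 {t : F} (ht : IsGen K t) : IsDedekindDomain ↥(C1 (K := K) t) :=
  isDedekindDomain_C0 ht.inv

omit [CharZero K] in
theorem isFractionRing_C0 {t : F} (ht : IsGen K t) : IsFractionRing ↥(C0 (K := K) t) F := by
  haveI := isFractionRing_intRing ht
  exact (IsFractionRing.isFractionRing_iff_of_base_ringEquiv F (c0Equiv (K := K) t)).mp
    inferInstance

omit [CharZero K] in
theorem isFractionRing_C1 {t : F} (ht : IsGen K t) : IsFractionRing ↥(C1 (K := K) t) F :=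
  isFractionRing_C0 ht.inv

end Field

section Adapter

universe u v

variable {K : Type u} [Field K] {R0 R1 R01 : Type u} [CommRing R0] [CommRing R1] [CommRing R01]
  [Algebra K R0] [Algebra K R1] [Algebra K R01] [Algebra R0 R01] [Algebra R1 R01]
  [IsScalarTower K R0 R01] [IsScalarTower K R1 R01]
  {F : Type v} [Field F] [Algebra K F] [CharZero K]
  {c : TwoChart K R0 R1 R01} {t : F}

open Fermat.Agent.T1.Adapt96

/-- **(D-NOETH), chart 0.** -/
theorem ChartIso.isDedekindDomain0 (E : ChartIso c t) (ht : IsGen K t) : IsDedekindDomain R0 :=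
  haveI := isDedekindDomain_C0 ht
  isDedekindDomain_of_ringEquiv34 E.e0.symm

/-- **(D-NOETH), chart 1.** -/
theorem ChartIso.isDedekindDomain1 (E : ChartIso c t) (ht : IsGen K t) : IsDedekindDomain R1 :=
  haveI := isDedekindDomain_C1 ht
  isDedekindDomain_of_ringEquiv34 E.e1.symm

theorem ChartIso.isNoetherianRing0 (E : ChartIso c t) (ht : IsGen K t) : IsNoetherianRing R0 :=
  haveI := ChartIso.isDedekindDomain0 E ht
  inferInstance

theorem ChartIso.isNoetherianRing1 (E : ChartIso c t) (ht : IsGen K t) : IsNoetherianRing R1 :=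
  haveI := ChartIso.isDedekindDomain1 E ht
  inferInstance

theorem ChartIso.isDomain0 (E : ChartIso c t) (ht : IsGen K t) : IsDomain R0 :=
  haveI := ChartIso.isDedekindDomain0 E ht
  inferInstance

theorem ChartIso.isDomain1 (E : ChartIso c t) (ht : IsGen K t) : IsDomain R1 :=
  haveI := ChartIso.isDedekindDomain1 E ht
  inferInstance

end Adapter

end Fermat.Agent.T1.Dict34
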