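/-
Programme T1a (S19), brick G7 DICT, piece (P5) (helper34), file 2: **base change of points.**

Vocabulary of `Dict59/Level.lean`.  `L₁ ≤ L` intermediate fields of `ℚ̄ / ℚ`, `W`-algebras, with an
`Algebra L₁ L` structure inducing the inclusion (use `letI := HubInst98.algKL hL`, then
`halg := fun _ => rfl`); `E₁`, `E` chart identifications at the two levels, compatible on `B0`
(resp. `B1`) with the inclusion `cLL M hL : L₁·F_M → L·F_M`.  Then a point `q : B0 →ₐ[W] L₁` under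
the place `w` stays under `w` after composition with `L₁ → L`:

* `isPtOf0_baseChange : IsPtOf0 c0 E₁ w q → IsPtOf0 c0 E w (ptComp L q)` (and the converse
  `isPtOf0_baseChange_iff`);
* `isPtOf1_baseChange`, `isPtOf1_baseChange_iff`;
* chart index: `PtBCCore.cL_cLL_mem_iff`, and `cL_mem_iff_of_eq`, `cL_inv_mem_iff_of_eq` in the
  form `(htt : t = cLL M hL t₁) → (cL M L t ∈ O_w ↔ cL M L₁ t₁ ∈ O_w)`.
-/
import Mathlib
import Fermat.Agent.T1.Dict59.Level
import Fermat.Agent.T1.Dict34.PtBCCore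

set_option autoImplicit false
set_option linter.unusedSectionVars false
set_option linter.style.haveILetI false
set_option synthInstance.maxHeartbeats 400000
set_option maxHeartbeats 1000000

noncomputable section

open HahnSeries AlgebraicCurve ModularCurve IntermediateField TensorProduct
open Fermat.Agent.RED.Interface4
open Fermat.Agent.Jac Fermat.Agent.Jac.BaseChange75 Fermat.Agent.T1.Adapt96
open Fermat.Agent.T1.Dict59 Fermat.Agent.T1.Dict67 Fermat.Agent.T1.PtLine75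
open scoped Fermat.Agent.Jac.BaseChange75

namespace Fermat.Agent.T1.Dict34

attribute [local instance 10000] algFK

variable {W B0 B1 B01 : Type} [CommRing W] [CommRing B0] [CommRing B1] [CommRing B01]
  [Algebra W B0] [Algebra W B1] [Algebra W B01] [Algebra B0 B01] [Algebra B1 B01]
  [IsScalarTower W B0 B01] [IsScalarTower W B1 B01]
  (c0 : TwoChart W B0 B1 B01)
  {M : ℕ} {L₁ L : IntermediateField ℚ Qbar} (hL : L₁ ≤ L) [Algebra W L₁] [Algebra W L]
  [Algebra L₁ L] [IsScalarTower W L₁ L]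
  (halg : ∀ a : L₁, algebraMap L₁ L a = IntermediateField.inclusion hL a)
  {t₁ : FK M L₁} {t : FK M L}
  (E₁ : ChartIso (c0.baseChange L₁) t₁) (E : ChartIso (c0.baseChange L) t)

/-- Chart index, in the form requested by the assembly. -/
theorem cL_mem_iff_of_eq (htt : t = cLL M hL t₁) (w : Place Qbar (Fbar M)) :
    cL M L t ∈ w.toValuationSubring ↔ cL M L₁ t₁ ∈ w.toValuationSubring := by
  rw [htt]
  exact cL_cLL_mem_iff M hL t₁ w

theorem cL_inv_mem_iff_of_eq (htt : t = cLL M hL t₁) (w : Place Qbar (Fbar M)) :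
    cL M L t⁻¹ ∈ w.toValuationSubring ↔ cL M L₁ t₁⁻¹ ∈ w.toValuationSubring := by
  rw [htt]
  exact cL_cLL_inv_mem_iff M hL t₁ w

include halg in
/-- **(P5), chart 0**: base change of a point under a place. -/
theorem isPtOf0_baseChange_iff
    (hcompat0 : ∀ b : B0, E.ι0 ((1 : L) ⊗ₜ[W] b) = cLL M hL (E₁.ι0 ((1 : L₁) ⊗ₜ[W] b)))
    (w : Place Qbar (Fbar M)) (q : B0 →ₐ[W] L₁) :
    IsPtOf0 c0 E w (ptComp L q) ↔ IsPtOf0 c0 E₁ w q := by
  unfold IsPtOf0
  refine forall_congr' fun b => ?_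
  rw [hcompat0 b, ptComp_apply, halg]
  exact ptCond_baseChange_iff M hL w _ _

include halg in
theorem isPtOf0_baseChange
    (hcompat0 : ∀ b : B0, E.ι0 ((1 : L) ⊗ₜ[W] b) = cLL M hL (E₁.ι0 ((1 : L₁) ⊗ₜ[W] b)))
    (w : Place Qbar (Fbar M)) (q : B0 →ₐ[W] L₁) (h : IsPtOf0 c0 E₁ w q) :
    IsPtOf0 c0 E w (ptComp L q) :=
  (isPtOf0_baseChange_iff c0 hL halg E₁ E hcompat0 w q).mpr h

include halg in
/-- **(P5), chart 1.** -/
theorem isPtOf1_baseChange_iff
    (hcompat1 : ∀ b : B1, E.ι1 ((1 : L) ⊗ₜ[W] b) = cLL M hL (E₁.ι1 ((1 : L₁) ⊗ₜ[W] b)))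
    (w : Place Qbar (Fbar M)) (q : B1 →ₐ[W] L₁) :
    IsPtOf1 c0 E w (ptComp L q) ↔ IsPtOf1 c0 E₁ w q := by
  unfold IsPtOf1
  refine forall_congr' fun b => ?_
  rw [hcompat1 b, ptComp_apply, halg]
  exact ptCond_baseChange_iff M hL w _ _

include halg in
theorem isPtOf1_baseChange
    (hcompat1 : ∀ b : B1, E.ι1 ((1 : L) ⊗ₜ[W] b) = cLL M hL (E₁.ι1 ((1 : L₁) ⊗ₜ[W] b)))
    (w : Place Qbar (Fbar M)) (q : B1 →ₐ[W] L₁) (h : IsPtOf1 c0 E₁ w q) :
    IsPtOf1 c0 E w (ptComp L q) :=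
  (isPtOf1_baseChange_iff c0 hL halg E₁ E hcompat1 w q).mpr h

/-- The instance-free form for the assembly: the `Algebra L₁ L` structure is `HubInst98.algKL`. -/
theorem isPtOf0_baseChange_algKL
    (hL : L₁ ≤ L)
    (htower : letI : Algebra L₁ L := (IntermediateField.inclusion hL : L₁ →+* L).toAlgebra
      IsScalarTower W L₁ L)
    (E₁ : ChartIso (c0.baseChange L₁) t₁) (E : ChartIso (c0.baseChange L) t)
    (hcompat0 : ∀ b : B0, E.ι0 ((1 : L) ⊗ₜ[W] b) = cLL M hL (E₁.ι0 ((1 : L₁) ⊗ₜ[W] b)))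
    (w : Place Qbar (Fbar M)) (q : B0 →ₐ[W] L₁) (h : IsPtOf0 c0 E₁ w q) :
    letI : Algebra L₁ L := (IntermediateField.inclusion hL : L₁ →+* L).toAlgebra
    haveI := htower
    IsPtOf0 c0 E w (ptComp L q) := by
  letI : Algebra L₁ L := (IntermediateField.inclusion hL : L₁ →+* L).toAlgebra
  haveI := htower
  exact isPtOf0_baseChange c0 hL (fun _ => rfl) E₁ E hcompat0 w q h

theorem isPtOf1_baseChange_algKL
    (hL : L₁ ≤ L)
    (htower : letI : Algebra L₁ L := (IntermediateField.inclusion hL : L₁ →+* L).toAlgebra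
      IsScalarTower W L₁ L)
    (E₁ : ChartIso (c0.baseChange L₁) t₁) (E : ChartIso (c0.baseChange L) t)
    (hcompat1 : ∀ b : B1, E.ι1 ((1 : L) ⊗ₜ[W] b) = cLL M hL (E₁.ι1 ((1 : L₁) ⊗ₜ[W] b)))
    (w : Place Qbar (Fbar M)) (q : B1 →ₐ[W] L₁) (h : IsPtOf1 c0 E₁ w q) :
    letI : Algebra L₁ L := (IntermediateField.inclusion hL : L₁ →+* L).toAlgebra
    haveI := htower
    IsPtOf1 c0 E w (ptComp L q) := by
  letI : Algebra L₁ L := (IntermediateField.inclusion hL : L₁ →+* L).toAlgebra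
  haveI := htower
  exact isPtOf1_baseChange c0 hL (fun _ => rfl) E₁ E hcompat1 w q h

end Fermat.Agent.T1.Dict34
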