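/-
Programme T1a (S19), brick G7 DICT, piece (P5) (helper34), file 1: **base change of the point
condition** along `L₁ ≤ L`, in expanded form (no dependence on the vocabulary file).

For `x₁ ∈ L₁·F_M`, `a ∈ L₁` and a place `w` of `ℚ̄·F_M`: the condition "`x₁` has value `a` at `w`"
(`x₁ = a ∨ 0 < ord_w (cL (x₁ - a))`) is unchanged when `x₁`, `a` are moved to `L·F_M`, `L`.

* `cLL_algebraMap : cLL M hL (algebraMap L₁ _ a) = algebraMap L _ (inclusion hL a)`;
* `ptCond_baseChange`, `ptCond_baseChange_iff`;
* `cL_cLL_mem_iff : cL M L (cLL M hL t₁) ∈ O_w ↔ cL M L₁ t₁ ∈ O_w` (chart index).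
-/
import Mathlib
import Fermat.Agent.T1.Dict59.Iface
import Fermat.Agent.T1.Dict67.BaseChange

set_option autoImplicit false
set_option linter.unusedSectionVars false
set_option synthInstance.maxHeartbeats 400000
set_option maxHeartbeats 1000000

noncomputable section

open HahnSeries AlgebraicCurve ModularCurve IntermediateField
open Fermat.Agent.RED.Interface4 Fermat.Agent.T1.Dict59 Fermat.Agent.T1.Dict67

namespace Fermat.Agent.T1.Dict34

/-- Shortcut instance (instance search at `↥L`, `↥(FK M L)` is slow). -/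
@[reducible] def algFK (M : ℕ) (L : IntermediateField ℚ Qbar) : Algebra L (FK M L) :=
  SubalgebraClass.toAlgebra (FK M L)

attribute [local instance 10000] algFK

variable (M : ℕ) {L₁ L : IntermediateField ℚ Qbar} (hL : L₁ ≤ L)

/-- The inclusion `L₁·F_M → L·F_M` on constants. -/
theorem cLL_algebraMap (a : L₁) :
    cLL M hL (algebraMap L₁ (FK M L₁) a) =
      algebraMap L (FK M L) (IntermediateField.inclusion hL a) := by
  apply Subtype.ext
  exact Fermat.Agent.RED.DESC.CoeffDescent1.coeffMap_algebraMap_of_ringHom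
    (IntermediateField.inclusion hL).toRingHom a

theorem cLL_injective : Function.Injective (cLL M hL) := (cLL M hL).injective

/-- The chart index of a place does not depend on the field of constants. -/
theorem cL_cLL_mem_iff (t₁ : FK M L₁) (w : Place Qbar (Fbar M)) :
    cL M L (cLL M hL t₁) ∈ w.toValuationSubring ↔ cL M L₁ t₁ ∈ w.toValuationSubring := by
  rw [cL_cLL]

theorem cL_cLL_inv_mem_iff (t₁ : FK M L₁) (w : Place Qbar (Fbar M)) :
    cL M L (cLL M hL t₁)⁻¹ ∈ w.toValuationSubring ↔ cL M L₁ t₁⁻¹ ∈ w.toValuationSubring := by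
  rw [← map_inv₀, cL_cLL]

/-- **Base change of the point condition.** -/
theorem ptCond_baseChange_iff (w : Place Qbar (Fbar M)) (x₁ : FK M L₁) (a : L₁) :
    (cLL M hL x₁ = algebraMap L (FK M L) (IntermediateField.inclusion hL a) ∨
      0 < w.ord (cL M L (cLL M hL x₁ -
        algebraMap L (FK M L) (IntermediateField.inclusion hL a)))) ↔
    (x₁ = algebraMap L₁ (FK M L₁) a ∨
      0 < w.ord (cL M L₁ (x₁ - algebraMap L₁ (FK M L₁) a))) := by
  rw [← cLL_algebraMap M hL a, ← map_sub, cL_cLL, (cLL_injective M hL).eq_iff]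

theorem ptCond_baseChange (w : Place Qbar (Fbar M)) (x₁ : FK M L₁) (a : L₁)
    (h : x₁ = algebraMap L₁ (FK M L₁) a ∨
      0 < w.ord (cL M L₁ (x₁ - algebraMap L₁ (FK M L₁) a))) :
    cLL M hL x₁ = algebraMap L (FK M L) (IntermediateField.inclusion hL a) ∨
      0 < w.ord (cL M L (cLL M hL x₁ -
        algebraMap L (FK M L) (IntermediateField.inclusion hL a))) :=
  (ptCond_baseChange_iff M hL w x₁ a).mpr h

end Fermat.Agent.T1.Dict34
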